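import Fermat.Agent.V.RR.Const

/-!
# Program V (S27): the Riemann–Roch package `V27RR K F g` and its first corollaries

`V27RR K F g` bundles everything the consumers of Riemann–Roch need, on the Prelude definitions,
for an arbitrary constant field `K`:
finite-dimensionality of `L(D)` and `H¹(D)`, `L(D) = 0` for `deg D < 0`, `l(0) = 1`,
`g = i(0) = genusFF K F`, a canonical divisor `W` with `deg W = 2g - 2`, `l(W) = g`,
`i(D) = l(W - D)` and `l(D) = deg D + 1 - g + l(W - D)`.

`v27rr_pack` assembles it from the outputs of the leaves A2.1 (adelic count), A2.2 (Riemann) and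
A2.3 (duality, `V/Dual`).
-/

set_option autoImplicit false
set_option linter.unusedSectionVars false
set_option linter.unusedVariables false

noncomputable section

namespace Fermat.Agent.V.RR

open AlgebraicCurve Module Fermat.Agent.S24 Fermat.Agent.V.Dual

/-- the Riemann–Roch package for `F / K` with genus `g`. -/
structure V27RR (K F : Type*) [Field K] [Field F] [Algebra K F] (g : ℕ) : Prop where
  hasDiv : HasPrincipalDivisors K F
  res : ∀ v : Place K F, Module.Finite K v.ResidueField
  place : Nonempty (Place K F)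
  finL : ∀ D : Divisor K F, Module.Finite K (riemannRochSpace D)
  finH : ∀ D : Divisor K F, Module.Finite K (H1 D)
  neg : ∀ D : Divisor K F, Divisor.degree D < 0 → riemannRochSpace D = ⊥
  zero : finrank K (riemannRochSpace (0 : Divisor K F)) = 1
  genus : genusFF K F = g
  can : ∃ W : Divisor K F, Divisor.degree W = 2 * (g : ℤ) - 2 ∧
    finrank K (riemannRochSpace W) = g ∧
    (∀ D : Divisor K F, finrank K (H1 D) = finrank K (riemannRochSpace (W - D))) ∧
    ∀ D : Divisor K F, (finrank K (riemannRochSpace D) : ℤ) =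
      Divisor.degree D + 1 - g + finrank K (riemannRochSpace (W - D))

variable {K F : Type*} [Field K] [Field F] [Algebra K F]

/-- **Assembly of Riemann–Roch** from the three leaves.
`hconst` is the adelic count (A2.1), `hRiem` is Riemann's theorem (A2.2). -/
theorem v27rr_pack [HasPrincipalDivisors K F]
    (hres : ∀ v : Place K F, Module.Finite K v.ResidueField) (hP : Nonempty (Place K F))
    (halg : ∀ f : F, IsAlgebraic K f → f ∈ (algebraMap K F).range)
    (hfinL : ∀ D : Divisor K F, Module.Finite K (riemannRochSpace D))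
    (hfinH : ∀ D : Divisor K F, Module.Finite K (H1 D))
    (hconst : ∀ D : Divisor K F,
      (finrank K (riemannRochSpace D) : ℤ) - finrank K (H1 D) - Divisor.degree D =
        (finrank K (riemannRochSpace (0 : Divisor K F)) : ℤ) - finrank K (H1 (0 : Divisor K F)))
    (hRiem : ∃ c : ℤ, ∀ D : Divisor K F, c ≤ Divisor.degree D → finrank K (H1 D) = 0)
    (hneg : ∀ D : Divisor K F, Divisor.degree D < 0 → riemannRochSpace D = ⊥) :
    V27RR K F (genusFF K F) := by
  have h0 := v27rr_finrank_rrSpace_zero hres hP halg
  have hRR1 : ∀ D : Divisor K F, (finrank K (riemannRochSpace D) : ℤ) =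
      Divisor.degree D + 1 - (genusFF K F : ℤ) + finrank K (H1 D) := by
    intro D
    have := hconst D
    rw [h0] at this
    have hg : (finrank K (H1 (0 : Divisor K F)) : ℤ) = (genusFF K F : ℤ) := rfl
    push_cast at this
    linarith
  obtain ⟨W, h1, h2, h3, h4⟩ :=
    v27d_riemann_roch hres hP (genusFF K F : ℤ) hfinL hfinH hRR1 hRiem hneg h0
  exact
    { hasDiv := inferInstance
      res := hres
      place := hP
      finL := hfinL
      finH := hfinH
      neg := hneg
      zero := h0
      genus := rfl
      can := ⟨W, h1, by exact_mod_cast h2, h3, h4⟩ }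

theorem v27rr_rrSpace_mono {D D' : Divisor K F} (h : D ≤ D') :
    riemannRochSpace D ≤ riemannRochSpace D' := by
  intro f hf
  rw [mem_riemannRochSpace_iff] at hf ⊢
  intro v
  rcases hf v with h0 | h1
  · exact Or.inl h0
  · right
    have := Finsupp.le_def.mp h v
    linarith

namespace V27RR

variable {g : ℕ} (R : V27RR K F g)

include R

/-- Riemann's inequality. -/
theorem riemann_ineq (D : Divisor K F) :
    Divisor.degree D + 1 - g ≤ (finrank K (riemannRochSpace D) : ℤ) := by
  obtain ⟨W, -, -, -, h⟩ := R.can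
  rw [h D]
  have : (0 : ℤ) ≤ finrank K (riemannRochSpace (W - D)) := Int.natCast_nonneg _
  linarith

/-- `l(D) = deg D + 1 - g` and `i(D) = 0` for `deg D > 2g - 2`. -/
theorem finrank_of_lt {D : Divisor K F} (hD : 2 * (g : ℤ) - 2 < Divisor.degree D) :
    (finrank K (riemannRochSpace D) : ℤ) = Divisor.degree D + 1 - g ∧ finrank K (H1 D) = 0 := by
  obtain ⟨W, hW, -, h3, h⟩ := R.can
  have hz : riemannRochSpace (W - D) = ⊥ := R.neg _ (by rw [map_sub]; linarith)
  refine ⟨?_, ?_⟩
  · rw [h D, hz, finrank_bot]
    simp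
  · rw [h3 D, hz, finrank_bot]

/-- first form: `l(D) = deg D + 1 - g + i(D)`. -/
theorem first_form (D : Divisor K F) :
    (finrank K (riemannRochSpace D) : ℤ) = Divisor.degree D + 1 - g + finrank K (H1 D) := by
  obtain ⟨W, -, -, h3, h⟩ := R.can
  rw [h D, h3 D]

/-- every divisor of degree `≥ g` is linearly equivalent to an effective one. -/
theorem exists_ne_zero_mem {D : Divisor K F} (hD : (g : ℤ) ≤ Divisor.degree D) :
    ∃ f : F, f ≠ 0 ∧ f ∈ riemannRochSpace D := by
  have h := R.riemann_ineq D
  have hpos : 0 < finrank K (riemannRochSpace D) := by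
    have : (0 : ℤ) < finrank K (riemannRochSpace D) := by linarith
    exact_mod_cast this
  have hne : riemannRochSpace D ≠ ⊥ := by
    intro h0
    rw [h0, finrank_bot] at hpos
    exact lt_irrefl _ hpos
  obtain ⟨f, hf, hf0⟩ := Submodule.exists_mem_ne_zero_of_ne_bot hne
  exact ⟨f, hf0, hf⟩

/-- if `deg D ≥ 2g - 1 + deg P` then `L(D - P) ≠ L(D)`: there is `f ∈ L(D)` with
`ord_P f = -D(P)` exactly. -/
theorem exists_ord_eq {D : Divisor K F} (P : Place K F)
    (hD : 2 * (g : ℤ) - 2 + P.deg < Divisor.degree D) :
    ∃ f : F, f ≠ 0 ∧ f ∈ riemannRochSpace D ∧ P.ord f = -D P := by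
  classical
  have hdP := v27d_deg_pos R.res P
  have h1 := (R.finrank_of_lt (D := D) (by
    have : (0 : ℤ) < P.deg := by exact_mod_cast hdP
    linarith)).1
  have h2 := (R.finrank_of_lt (D := D - Finsupp.single P 1) (by
    rw [map_sub, Divisor.degree_single, one_mul]; linarith)).1
  rw [map_sub, Divisor.degree_single, one_mul] at h2
  have hlt : finrank K (riemannRochSpace (D - Finsupp.single P 1)) <
      finrank K (riemannRochSpace D) := by
    have : (finrank K (riemannRochSpace (D - Finsupp.single P 1)) : ℤ) <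
        finrank K (riemannRochSpace D) := by
      have : (0 : ℤ) < P.deg := by exact_mod_cast hdP
      linarith
    exact_mod_cast this
  have hle : riemannRochSpace (D - Finsupp.single P 1) ≤ riemannRochSpace D :=
    v27rr_rrSpace_mono (by
      rw [sub_le_self_iff]
      exact Finsupp.single_nonneg.mpr zero_le_one)
  have hne : riemannRochSpace (D - Finsupp.single P 1) ≠ riemannRochSpace D := by
    intro h
    rw [h] at hlt
    exact lt_irrefl _ hlt
  obtain ⟨f, hf, hf'⟩ := SetLike.exists_of_lt (lt_of_le_of_ne hle hne)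
  have hf0 : f ≠ 0 := by
    rintro rfl
    exact hf' (Submodule.zero_mem _)
  refine ⟨f, hf0, hf, ?_⟩
  rw [mem_riemannRochSpace_iff] at hf hf'
  have hP1 := (hf P).resolve_left hf0
  by_contra hne'
  apply hf'
  intro v
  right
  by_cases hv : v = P
  · subst hv
    rw [Finsupp.sub_apply, Finsupp.single_eq_same]
    omega
  · rw [Finsupp.sub_apply, Finsupp.single_eq_of_ne hv, sub_zero]
    exact (hf v).resolve_left hf0

/-- a function with a single pole, of exact order `n`, at a place `P` of degree one
(`n ≥ 2g`). -/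
theorem exists_single_pole (P : Place K F) (hdeg : P.deg = 1) {n : ℕ} (hn : 2 * g ≤ n) :
    ∃ f : F, f ≠ 0 ∧ P.ord f = -(n : ℤ) ∧ ∀ v : Place K F, v ≠ P → 0 ≤ v.ord f := by
  classical
  obtain ⟨f, hf0, hf, hord⟩ := R.exists_ord_eq (D := Finsupp.single P (n : ℤ)) P (by
    rw [Divisor.degree_single, hdeg]
    push_cast
    have : (2 * g : ℤ) ≤ n := by exact_mod_cast hn
    linarith)
  refine ⟨f, hf0, by rw [hord, Finsupp.single_eq_same], fun v hv => ?_⟩
  rw [mem_riemannRochSpace_iff] at hf
  have := (hf v).resolve_left hf0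
  rwa [Finsupp.single_eq_of_ne hv, neg_zero] at this

end V27RR

end Fermat.Agent.V.RR
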