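import Fermat.Agent.V.RR.SepGen
import Fermat.Agent.S24.Places

/-!
# Program V (S27), BRIDGE-X, part 2: the frozen hypotheses give a place
-/

set_option autoImplicit false

namespace Fermat.Agent.V.RR

open AlgebraicCurve Fermat.Agent.S24

variable {K F : Type*} [Field K] [Field F] [Algebra K F]

theorem v27x_nonempty_place_of_isSepGen {x : F} (hx : IsSepGen K x) : Nonempty (Place K F) := by
  obtain ⟨v, -⟩ := hx.exists_ord_pos
  exact ⟨v⟩

theorem v27x_nonempty_place [PerfectField K] [IsCurveOver K F] [Algebra.EssFiniteType K F] :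
    Nonempty (Place K F) := by
  obtain ⟨x, hx⟩ := v27x_exists_sepGen (K := K) (F := F)
  exact v27x_nonempty_place_of_isSepGen hx

end Fermat.Agent.V.RR
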