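import Fermat.Agent.V.RR.Pack
import Fermat.Agent.V.RR.SepGenPlace
import Fermat.Agent.V.Riem2.Main
import Fermat.Agent.V.Rep.Riemann

/-!
# Program V (S27): the CLOSED Riemann–Roch theorem

`v27x_rr_of_isSepGen`: for an arbitrary constant field `K`, algebraically closed in `F`, a separating
variable `x`, `[HasPrincipalDivisors K F]` and finite residue fields: `V27RR K F (genusFF K F)`.

`v27x_rr`: under the FROZEN hypotheses of S27 minus the characteristic
(`[IsAlgClosed K] [IsCurveOver K F] [Algebra.EssFiniteType K F]`): `V27RR K F (genusFF K F)`.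

`v27x_rr_perfect`: the same for a perfect field `K` algebraically closed in `F`.
-/

set_option autoImplicit false

noncomputable section

namespace Fermat.Agent.V.RR

open AlgebraicCurve Module Fermat.Agent.S24 Fermat.Agent.V.Dual Fermat.Agent.V.Riem2

variable {K F : Type*} [Field K] [Field F] [Algebra K F]

/-- Riemann–Roch from a separating variable. -/
theorem v27x_rr_of_isSepGen [HasPrincipalDivisors K F]
    (hres : ∀ v : Place K F, Module.Finite K v.ResidueField)
    (halg : ∀ f : F, IsAlgebraic K f → f ∈ (algebraMap K F).range)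
    {x : F} (hx : IsSepGen K x) : V27RR K F (genusFF K F) := by
  have hP : Nonempty (Place K F) := v27x_nonempty_place_of_isSepGen hx
  obtain ⟨D₀, hD₀⟩ := v27q_exists_top hres hx
  obtain ⟨hfinH, hRiem⟩ := v27r_riemann_of_exists hres hP hD₀
  exact v27rr_pack hres hP halg (fun D => v27r_rrSpace_finite hres D) hfinH
    (fun D => v27r_hconst hres hP hfinH D) hRiem (fun D hD => v27r_rrSpace_eq_bot hD)

/-- Riemann–Roch for a perfect constant field which is algebraically closed in `F`. -/
theorem v27x_rr_perfect [PerfectField K] [IsCurveOver K F] [Algebra.EssFiniteType K F]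
    (halg : ∀ f : F, IsAlgebraic K f → f ∈ (algebraMap K F).range) :
    V27RR K F (genusFF K F) := by
  obtain ⟨x, hx⟩ := v27x_exists_sepGen (K := K) (F := F)
  exact v27x_rr_of_isSepGen (fun v => IsCurveOver.finiteResidue v) halg hx

/-- **Riemann–Roch under the frozen hypotheses of S27** (any characteristic). -/
theorem v27x_rr [IsAlgClosed K] [IsCurveOver K F] [Algebra.EssFiniteType K F] :
    V27RR K F (genusFF K F) :=
  v27x_rr_perfect v27rr_halg_of_isAlgClosed

end Fermat.Agent.V.RR
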