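import Mathlib
import Fermat.Prelude.Def_AlgebraicCurve_IsCurveOver
import Fermat.Agent.S24.PlacesDefs

/-!
# Program V (S27), BRIDGE-X: a separating variable from the frozen hypotheses

`v27x_exists_sepGen`: for a perfect field `K` and `F / K` essentially of finite type whose module of
Kähler differentials has rank one (in particular under `[IsCurveOver K F]`) there is `x : F`
transcendental over `K` with `F / K(x)` finite separable, i.e. `S24.IsSepGen K x`.
-/

set_option autoImplicit false
set_option linter.unusedSectionVars false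
set_option linter.unusedVariables false

noncomputable section

namespace Fermat.Agent.V.RR

open AlgebraicCurve Module KaehlerDifferential IntermediateField Fermat.Agent.S24

variable {K F : Type*} [Field K] [Field F] [Algebra K F]

/-- the kernel of the universal derivation is a subfield: if `D` kills `s` it kills `K(s)`. -/
theorem v27x_D_eq_zero_of_mem_adjoin {s : Set F} (hs : ∀ c ∈ s, D K F c = 0) {e : F}
    (he : e ∈ adjoin K s) : D K F e = 0 := by
  induction he using IntermediateField.adjoin_induction with
  | mem x hx => exact hs x hx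
  | algebraMap x => exact Derivation.map_algebraMap _ _
  | add x y _ _ hx hy => rw [map_add, hx, hy, add_zero]
  | inv x _ hx => rw [Derivation.leibniz_inv, hx, smul_zero]
  | mul x y _ _ hx hy => rw [Derivation.leibniz, hx, hy, smul_zero, smul_zero, add_zero]

/-- if `F / E` is formally unramified and `D` kills `E`, then `Ω[F⁄K] = 0`. -/
theorem v27x_subsingleton_of_D_eq_zero (E : IntermediateField K F)
    [Algebra.FormallyUnramified E F] (hE : ∀ e : E, D K F (e : F) = 0) :
    Subsingleton Ω[F⁄K] := by
  have hmap : KaehlerDifferential.map K K E F = 0 := by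
    apply LinearMap.ext_on_range (KaehlerDifferential.span_range_derivation K E)
    intro e
    rw [KaehlerDifferential.map_D, LinearMap.zero_apply]
    exact hE e
  have hbc : ∀ t, mapBaseChange K E F t = 0 := by
    intro t
    induction t using TensorProduct.induction_on with
    | zero => exact map_zero _
    | tmul x y => rw [mapBaseChange_tmul, hmap, LinearMap.zero_apply, smul_zero]
    | add a b ha hb => rw [map_add, ha, hb, add_zero]
  refine ⟨fun a b => ?_⟩
  have h0 : ∀ ω : Ω[F⁄K], ω = 0 := by
    intro ω
    have hz : KaehlerDifferential.map K E F F ω = 0 := Subsingleton.elim _ _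
    obtain ⟨t, rfl⟩ := (KaehlerDifferential.exact_mapBaseChange_map K E F ω).mp hz
    exact hbc t
  rw [h0 a, h0 b]

/-- **BRIDGE-X**, rank form. -/
theorem v27x_exists_sepGen_of_finrank [PerfectField K] [Algebra.EssFiniteType K F]
    (hrank : Module.finrank F Ω[F⁄K] = 1) :
    ∃ x : F, IsSepGen K x := by
  obtain ⟨s, hs, hsep⟩ := exists_isTranscendenceBasis_and_isSeparable_of_perfectField K F
  have hnt : Nontrivial Ω[F⁄K] := Module.nontrivial_of_finrank_eq_succ (n := 0) hrank
  -- some member of `s` has non-zero differential
  have hex : ∃ c ∈ (s : Set F), D K F c ≠ 0 := by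
    by_contra hno
    push Not at hno
    have : Algebra.FormallyUnramified (adjoin K (s : Set F)) F :=
      Algebra.FormallyUnramified.of_isSeparable _ _
    have hsub := v27x_subsingleton_of_D_eq_zero (K := K) (adjoin K (s : Set F))
      (fun e => v27x_D_eq_zero_of_mem_adjoin hno e.2)
    exact not_subsingleton _ hsub
  obtain ⟨c, hcs, hc⟩ := hex
  have htop : F ∙ D K F c = ⊤ := (finrank_eq_one_iff_of_nonzero _ hc).mp hrank
  -- `Ω[F⁄K(c)] = 0`
  have hsub : Subsingleton Ω[F⁄K⟮c⟯] := by
    have h0 : ∀ η : Ω[F⁄K⟮c⟯], η = 0 := by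
      intro η
      obtain ⟨ω, rfl⟩ := KaehlerDifferential.map_surjective K K⟮c⟯ F η
      have hω : ω ∈ F ∙ D K F c := htop ▸ Submodule.mem_top
      obtain ⟨f, rfl⟩ := Submodule.mem_span_singleton.mp hω
      rw [map_smul, KaehlerDifferential.map_D]
      have : (algebraMap F F) c = algebraMap K⟮c⟯ F ⟨c, mem_adjoin_simple_self K c⟩ := rfl
      rw [this, Derivation.map_algebraMap, smul_zero]
    exact ⟨fun a b => by rw [h0 a, h0 b]⟩
  have hunr : Algebra.FormallyUnramified K⟮c⟯ F := ⟨hsub⟩
  have hess : Algebra.EssFiniteType K⟮c⟯ F := Algebra.EssFiniteType.of_comp K K⟮c⟯ F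
  have hsepc : Algebra.IsSeparable K⟮c⟯ F := Algebra.FormallyUnramified.isSeparable K⟮c⟯ F
  have hfinc : Module.Finite K⟮c⟯ F := Algebra.FormallyUnramified.finite_of_free K⟮c⟯ F
  have htr : Transcendental K c := by
    have := hs.1.transcendental ⟨c, hcs⟩
    exact this
  exact ⟨c, htr, hfinc, hsepc⟩

/-- **BRIDGE-X**: the frozen hypotheses of S27 give a separating variable. -/
theorem v27x_exists_sepGen [PerfectField K] [IsCurveOver K F] [Algebra.EssFiniteType K F] :
    ∃ x : F, IsSepGen K x :=
  v27x_exists_sepGen_of_finrank IsCurveOver.finrank_kaehler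

end Fermat.Agent.V.RR
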