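import Fermat.Agent.V.Dual.Main
import Fermat.Agent.S24.PlaceOrd

/-!
# Program V (S27): `L(0) = K` and monotonicity of the degree

* `v27rr_degree_nonneg`, `v27rr_degree_mono`: the degree of an effective divisor is `≥ 0`.
* `v27rr_rrSpace_zero`: if `K` is algebraically closed in `F` (and there is a place, residue
  fields are finite over `K`), then `L(0) = K`, in particular `l(0) = 1`.
-/

set_option autoImplicit false
set_option linter.unusedSectionVars false
set_option linter.unusedVariables false

noncomputable section

namespace Fermat.Agent.V.RR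

open AlgebraicCurve Module Polynomial Fermat.Agent.S24 Fermat.Agent.V.Dual

variable {K F : Type*} [Field K] [Field F] [Algebra K F]

theorem v27rr_degree_eq_sum (D : Divisor K F) :
    Divisor.degree D = D.sum fun v n => n * (v.deg : ℤ) := by
  rw [Divisor.degree, Finsupp.liftAddHom_apply]
  rfl

theorem v27rr_degree_nonneg {D : Divisor K F} (h : 0 ≤ D) : 0 ≤ Divisor.degree D := by
  rw [v27rr_degree_eq_sum]
  refine Finset.sum_nonneg fun v _ => ?_
  have : 0 ≤ D v := Finsupp.le_def.mp h v
  positivity

theorem v27rr_degree_mono {D D' : Divisor K F} (h : D ≤ D') :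
    Divisor.degree D ≤ Divisor.degree D' := by
  have := v27rr_degree_nonneg (sub_nonneg.mpr h)
  rw [map_sub] at this
  linarith

/-- a function all of whose orders are `≥ 0` and which vanishes somewhere is zero. -/
theorem v27rr_eq_zero_of_ord [HasPrincipalDivisors K F]
    (hres : ∀ v : Place K F, Module.Finite K v.ResidueField) {h : F}
    (hnn : ∀ v : Place K F, 0 ≤ v.ord h) {P : Place K F} (hP : 0 < P.ord h) : h = 0 := by
  by_contra h0
  have hle : Finsupp.single P (1 : ℤ) ≤ v27d_div K h := by
    classical
    rw [Finsupp.le_def]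
    intro v
    rw [v27d_div_apply', Finsupp.single_apply]
    split_ifs with hv
    · subst hv; omega
    · exact hnn v
  have := v27rr_degree_mono hle
  rw [v27d_degree_div, Divisor.degree_single, one_mul] at this
  have hpos := v27d_deg_pos hres P
  omega

/-- elements of the polynomial ring `K[f]` are regular wherever `f` is. -/
theorem v27rr_ord_aeval_nonneg (v : Place K F) {f : F} (hf : 0 ≤ v.ord f) (m : K[X]) :
    0 ≤ v.ord (aeval f m) := by
  have hmem : f ∈ v.toValuationSubring := PlaceOrd.mem_of_ord_nonneg v hf
  have e : aeval f m = ((aeval (⟨f, hmem⟩ : v.toValuationSubring) m : v.toValuationSubring) : F) := by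
    have := Polynomial.aeval_algebraMap_apply (A := v.toValuationSubring) F
      (⟨f, hmem⟩ : v.toValuationSubring) m
    exact this
  rw [e]
  exact PlaceOrd.ord_nonneg_of_mem v (Subtype.mem _)

/-- **`L(0) = K`** when `K` is algebraically closed in `F`. -/
theorem v27rr_mem_rrSpace_zero [HasPrincipalDivisors K F]
    (hres : ∀ v : Place K F, Module.Finite K v.ResidueField) (hP : Nonempty (Place K F))
    (halg : ∀ f : F, IsAlgebraic K f → f ∈ (algebraMap K F).range) {f : F}
    (hf : f ∈ riemannRochSpace (0 : Divisor K F)) : f ∈ (algebraMap K F).range := by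
  apply halg
  by_contra htr
  obtain ⟨P⟩ := hP
  rw [mem_riemannRochSpace_iff] at hf
  have hnn : ∀ v : Place K F, 0 ≤ v.ord f := by
    intro v
    rcases hf v with h | h
    · rw [h, Place.ord_zero]
    · simpa using h
  have hmem : f ∈ P.toValuationSubring := PlaceOrd.mem_of_ord_nonneg P (hnn P)
  have := hres P
  have halgR : Algebra.IsAlgebraic K P.ResidueField := Algebra.IsAlgebraic.of_finite K _
  obtain ⟨m, hm0, hm⟩ := halgR.isAlgebraic
    (IsLocalRing.residue P.toValuationSubring ⟨f, hmem⟩)
  -- `m(f)` lies in the maximal ideal at `P`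
  have hres0 : IsLocalRing.residue P.toValuationSubring
      (aeval (⟨f, hmem⟩ : P.toValuationSubring) m) = 0 := by
    have := Polynomial.aeval_algebraMap_apply (A := P.toValuationSubring) P.ResidueField
      (⟨f, hmem⟩ : P.toValuationSubring) m
    rw [← hm]
    exact this.symm
  have hmax : aeval (⟨f, hmem⟩ : P.toValuationSubring) m ∈
      IsLocalRing.maximalIdeal P.toValuationSubring := (IsLocalRing.residue_eq_zero_iff _).mp hres0
  have e : aeval f m = ((aeval (⟨f, hmem⟩ : P.toValuationSubring) m : P.toValuationSubring) : F) :=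
    Polynomial.aeval_algebraMap_apply (A := P.toValuationSubring) F
      (⟨f, hmem⟩ : P.toValuationSubring) m
  have hne : aeval f m ≠ 0 := fun h => htr ⟨m, hm0, h⟩
  have hne' : aeval (⟨f, hmem⟩ : P.toValuationSubring) m ≠ 0 := by
    intro h
    rw [h] at e
    exact hne e
  have hpos : 0 < P.ord (aeval f m) := by
    rw [e]
    exact (PlaceOrd.ord_pos_iff_mem_maximalIdeal P hne').2 hmax
  exact hne (v27rr_eq_zero_of_ord hres (fun v => v27rr_ord_aeval_nonneg v (hnn v) m) hpos)

theorem v27rr_rrSpace_zero [HasPrincipalDivisors K F]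
    (hres : ∀ v : Place K F, Module.Finite K v.ResidueField) (hP : Nonempty (Place K F))
    (halg : ∀ f : F, IsAlgebraic K f → f ∈ (algebraMap K F).range) :
    riemannRochSpace (0 : Divisor K F) = LinearMap.range (Algebra.linearMap K F) := by
  apply le_antisymm
  · intro f hf
    obtain ⟨a, rfl⟩ := v27rr_mem_rrSpace_zero hres hP halg hf
    exact ⟨a, rfl⟩
  · rintro _ ⟨a, rfl⟩
    rw [mem_riemannRochSpace_iff]
    intro v
    right
    rw [Algebra.linearMap_apply, PlaceOrd.ord_algebraMap]
    simp

/-- `l(0) = 1`. -/
theorem v27rr_finrank_rrSpace_zero [HasPrincipalDivisors K F]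
    (hres : ∀ v : Place K F, Module.Finite K v.ResidueField) (hP : Nonempty (Place K F))
    (halg : ∀ f : F, IsAlgebraic K f → f ∈ (algebraMap K F).range) :
    finrank K (riemannRochSpace (0 : Divisor K F)) = 1 := by
  rw [v27rr_rrSpace_zero hres hP halg]
  rw [LinearMap.finrank_range_of_inj, Module.finrank_self]
  exact (algebraMap K F).injective

/-- for an algebraically closed constant field the hypothesis `halg` is automatic. -/
theorem v27rr_halg_of_isAlgClosed [IsAlgClosed K] (f : F) (hf : IsAlgebraic K f) :
    f ∈ (algebraMap K F).range := by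
  have hint : IsIntegral K f := hf.isIntegral
  obtain ⟨a, ha⟩ := IsAlgClosed.exists_aeval_eq_zero K (minpoly K f)
    (minpoly.degree_pos hint).ne'
  -- the minimal polynomial has the root `a`, hence is `X - a`
  have hirr := minpoly.irreducible hint
  have hdvd : (X - C a) ∣ minpoly K f := by
    rw [dvd_iff_isRoot]
    simpa using ha
  obtain ⟨u, hu⟩ := hdvd
  have hunit : IsUnit u := by
    rcases hirr.isUnit_or_isUnit hu with h | h
    · exact absurd h (Polynomial.not_isUnit_X_sub_C a)
    · exact h
  have h0 : aeval f (X - C a) = 0 := by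
    have h1 := minpoly.aeval K f
    rw [hu, map_mul] at h1
    rcases mul_eq_zero.mp h1 with h | h
    · exact h
    · exfalso
      obtain ⟨c, hc0, rfl⟩ := Polynomial.isUnit_iff.mp hunit
      simp at h
      exact hc0.ne_zero h
  refine ⟨a, ?_⟩
  simp at h0
  exact (sub_eq_zero.mp h0).symm

end Fermat.Agent.V.RR
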